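import Mathlib

/-!
# DS-L6 (LIFT), part A: lifting idempotent matrices along a "split local" ring map

Let `π : R →+* k` be a ring homomorphism from a commutative ring to a field such that
every element with non-zero image is a unit, and such that every monic polynomial over `R`
is a product of linear factors.  If `a` is a square matrix over `R` whose reduction is
idempotent, then some polynomial in `a` is an idempotent matrix with the same reduction.
-/

namespace Fermat.Agent.DS.Lift

open Polynomial Matrix

section general

variable {A : Type*} [CommSemiring A]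

theorem isCoprime_multiset_prod_left (s : Multiset A) (x : A)
    (h : ∀ y ∈ s, IsCoprime y x) : IsCoprime s.prod x := by
  induction s using Multiset.induction_on with
  | empty => simpa using isCoprime_one_left
  | cons a s ih =>
    rw [Multiset.prod_cons]
    exact IsCoprime.mul_left (h a (Multiset.mem_cons_self _ _))
      (ih fun y hy => h y (Multiset.mem_cons_of_mem hy))

theorem isCoprime_multiset_prod_right (s : Multiset A) (x : A)
    (h : ∀ y ∈ s, IsCoprime x y) : IsCoprime x s.prod :=
  (isCoprime_multiset_prod_left s x fun y hy => (h y hy).symm).symm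

end general

section commute

variable {R : Type*} [CommSemiring R] {A : Type*} [Semiring A] [Algebra R A]

theorem commute_aeval_right {x y : A} (h : Commute x y) (P : R[X]) :
    Commute x (aeval y P) := by
  induction P using Polynomial.induction_on' with
  | add p q hp hq => rw [map_add]; exact hp.add_right hq
  | monomial n c =>
    rw [aeval_monomial]
    exact (Algebra.commute_algebraMap_right c x).mul_right (h.pow_right n)

end commute

section idem

variable {k : Type*} [CommRing k] {A : Type*} [Ring A] [Algebra k A]

theorem idem_pow_succ {E : A} (hE : E * E = E) (n : ℕ) : E ^ (n + 1) = E := by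
  induction n with
  | zero => simp
  | succ n ih => rw [pow_succ, ih, hE]

theorem aeval_mul_idem {E : A} (hE : E * E = E) (p : k[X]) :
    aeval E p * E = p.eval 1 • E := by
  induction p using Polynomial.induction_on' with
  | add p q hp hq => rw [map_add, add_mul, hp, hq, eval_add, add_smul]
  | monomial n c =>
    rw [aeval_monomial, mul_assoc, ← pow_succ, idem_pow_succ hE, eval_monomial, one_pow,
      mul_one, Algebra.smul_def]

theorem aeval_mul_one_sub_idem {E : A} (hE : E * E = E) (p : k[X]) :
    aeval E p * (1 - E) = p.eval 0 • (1 - E) := by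
  induction p using Polynomial.induction_on' with
  | add p q hp hq => rw [map_add, add_mul, hp, hq, eval_add, add_smul]
  | monomial n c =>
    rw [aeval_monomial, eval_monomial]
    rcases n with _ | n
    · simp [Algebra.smul_def]
    · have h0 : E ^ (n + 1) * (1 - E) = 0 := by
        rw [idem_pow_succ hE, mul_sub, mul_one, hE, sub_self]
      rw [mul_assoc, h0, mul_zero, zero_pow (Nat.succ_ne_zero n), mul_zero, zero_smul]

end idem

section lift

variable {R k : Type*} [CommRing R] [Field k] (π : R →+* k)
variable {ι : Type*} [Fintype ι] [DecidableEq ι]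

theorem map_aeval_matrix (a : Matrix ι ι R) (P : R[X]) :
    (aeval a P).map π = aeval (a.map π) (P.map π) := by
  have h : (algebraMap k (Matrix ι ι k)).comp π =
      (π.mapMatrix : Matrix ι ι R →+* Matrix ι ι k).comp (algebraMap R (Matrix ι ι R)) := by
    ext r i j
    simp only [RingHom.comp_apply, RingHom.mapMatrix_apply, Matrix.map_apply,
      Matrix.algebraMap_matrix_apply]
    split_ifs <;> simp
  have := Polynomial.map_aeval_eq_aeval_map h P a
  simpa only [RingHom.mapMatrix_apply] using this

/-- The core computation: a coprime factorisation `χ_a = g * h` with `ḡ(1) ≠ 0` and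
`h̄(0) ≠ 0` yields an idempotent polynomial in `a` lifting the idempotent `ā`. -/
theorem exists_idem_of_factor (a : Matrix ι ι R)
    (hE : a.map π * a.map π = a.map π) (g h : R[X]) (hgh : a.charpoly = g * h)
    (hcop : IsCoprime g h) (hg1 : π (g.eval 1) ≠ 0) (hh0 : π (h.eval 0) ≠ 0) :
    ∃ P : R[X], aeval a P * aeval a P = aeval a P ∧ (aeval a P).map π = a.map π := by
  obtain ⟨u, v, huv⟩ := hcop
  refine ⟨u * g, ?_, ?_⟩
  · -- idempotent
    have h1 : aeval a (u * g) + aeval a (v * h) = 1 := by
      rw [← map_add, huv, map_one]
    have h2 : aeval a (u * g) * aeval a (v * h) = 0 := by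
      rw [← map_mul]
      have : u * g * (v * h) = u * v * a.charpoly := by rw [hgh]; ring
      rw [this, map_mul, Matrix.aeval_self_charpoly, mul_zero]
    calc aeval a (u * g) * aeval a (u * g)
        = aeval a (u * g) * (aeval a (u * g) + aeval a (v * h)) - 
            aeval a (u * g) * aeval a (v * h) := by rw [mul_add, add_sub_cancel_right]
      _ = aeval a (u * g) := by rw [h1, h2, mul_one, sub_zero]
  · -- reduction
    set E := a.map π with hEdef
    have hCH : aeval E (a.charpoly.map π) = 0 := by
      rw [← map_aeval_matrix, Matrix.aeval_self_charpoly]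
      ext i j; simp
    have e0 : ∀ p : R[X], (p.map π).eval 0 = π (p.eval 0) := fun p => by
      rw [Polynomial.eval_map, Polynomial.eval₂_at_zero, ← Polynomial.coeff_zero_eq_eval_zero]
    have e1 : ∀ p : R[X], (p.map π).eval 1 = π (p.eval 1) := fun p => by
      rw [Polynomial.eval_map, Polynomial.eval₂_at_one]
    -- `ḡ(0) • (1 - E) = 0`
    have k0 : π (g.eval 0) • (1 - E) = 0 := by
      have := aeval_mul_one_sub_idem hE (a.charpoly.map π)
      rw [hCH, zero_mul, e0, hgh, eval_mul, map_mul, mul_comm, mul_smul] at this
      rcases smul_eq_zero.mp this.symm with h' | h'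
      · exact absurd h' hh0
      · exact h'
    -- `h̄(1) • E = 0`
    have k1 : π (h.eval 1) • E = 0 := by
      have := aeval_mul_idem hE (a.charpoly.map π)
      rw [hCH, zero_mul, e1, hgh, eval_mul, map_mul, mul_smul] at this
      rcases smul_eq_zero.mp this.symm with h' | h'
      · exact absurd h' hg1
      · exact h'
    have r1 : aeval E ((u * g).map π) * (1 - E) = 0 := by
      rw [aeval_mul_one_sub_idem hE, e0, eval_mul, map_mul, mul_smul, k0, smul_zero]
    have r2 : aeval E ((v * h).map π) * E = 0 := by
      rw [aeval_mul_idem hE, e1, eval_mul, map_mul, mul_smul, k1, smul_zero]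
    have r3 : aeval E ((u * g).map π) + aeval E ((v * h).map π) = 1 := by
      rw [← map_add, ← Polynomial.map_add, huv, Polynomial.map_one, map_one]
    rw [map_aeval_matrix]
    have r4 : aeval E ((u * g).map π) = aeval E ((u * g).map π) * E := by
      have := r1
      rw [mul_sub, mul_one, sub_eq_zero] at this
      exact this
    have r5 : E = aeval E ((u * g).map π) * E := by
      have : (aeval E ((u * g).map π) + aeval E ((v * h).map π)) * E = E := by
        rw [r3, one_mul]
      rw [add_mul, r2, add_zero] at this
      exact this.symm
    rw [r4, ← r5]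

variable (hunit : ∀ x, π x ≠ 0 → IsUnit x)
  (hspl : ∀ f : R[X], f.Monic → ∃ s : Multiset R, f = (s.map (fun r => X - C r)).prod)

include hunit in
theorem isCoprime_X_sub_C_of_ne (r r' : R) (h : π r ≠ π r') :
    IsCoprime (X - C r : R[X]) (X - C r') := by
  have hu : IsUnit (r' - r) := hunit _ (by rw [map_sub]; exact sub_ne_zero.mpr (Ne.symm h))
  obtain ⟨w, hw⟩ := hu.exists_left_inv
  refine ⟨C w, -C w, ?_⟩
  have : C w * (X - C r) + -C w * (X - C r') = C (w * (r' - r)) := by
    rw [C_mul, C_sub]; ring
  rw [this, hw, C_1]

include hunit hspl in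
/-- **Idempotent lifting**: if the reduction of `a` is idempotent then some polynomial in `a`
is an idempotent with the same reduction. -/
theorem exists_idempotent_lift (a : Matrix ι ι R) (hE : a.map π * a.map π = a.map π) :
    ∃ P : R[X], aeval a P * aeval a P = aeval a P ∧ (aeval a P).map π = a.map π := by
  classical
  obtain ⟨s, hs⟩ := hspl a.charpoly (Matrix.charpoly_monic a)
  set s0 := s.filter (fun r => π r = 0) with hs0
  set s1 := s.filter (fun r => ¬ π r = 0) with hs1
  have hsplit : s0 + s1 = s := Multiset.filter_add_not _ _
  set g : R[X] := (s0.map (fun r => X - C r)).prod with hg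
  set h : R[X] := (s1.map (fun r => X - C r)).prod with hh
  have hgh : a.charpoly = g * h := by
    rw [hs, hg, hh, ← Multiset.prod_add, ← Multiset.map_add, hsplit]
  have hcop : IsCoprime g h := by
    apply isCoprime_multiset_prod_left
    intro y hy
    obtain ⟨r, hr, rfl⟩ := Multiset.mem_map.mp hy
    apply isCoprime_multiset_prod_right
    intro y' hy'
    obtain ⟨r', hr', rfl⟩ := Multiset.mem_map.mp hy'
    apply isCoprime_X_sub_C_of_ne π hunit
    rw [(Multiset.mem_filter.mp hr).2]
    exact Ne.symm (Multiset.mem_filter.mp hr').2
  have hg1 : π (g.eval 1) ≠ 0 := by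
    rw [hg, eval_multiset_prod, map_multiset_prod, Multiset.map_map, Multiset.map_map]
    apply Multiset.prod_ne_zero
    intro h0
    obtain ⟨r, hr, hr0⟩ := Multiset.mem_map.mp h0
    simp only [Function.comp_apply, eval_sub, eval_X, eval_C, map_sub, map_one,
      (Multiset.mem_filter.mp hr).2, sub_zero] at hr0
    exact one_ne_zero hr0
  have hh0 : π (h.eval 0) ≠ 0 := by
    rw [hh, eval_multiset_prod, map_multiset_prod, Multiset.map_map, Multiset.map_map]
    apply Multiset.prod_ne_zero
    intro h0
    obtain ⟨r, hr, hr0⟩ := Multiset.mem_map.mp h0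
    simp only [Function.comp_apply, eval_sub, eval_X, eval_C, zero_sub, map_neg,
      neg_eq_zero] at hr0
    exact (Multiset.mem_filter.mp hr).2 hr0
  exact exists_idem_of_factor π a hE g h hgh hcop hg1 hh0

end lift

end Fermat.Agent.DS.Lift
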