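import Mathlib
import Fermat.Agent.DS.Lift.Idem

/-!
# DS-L6 (LIFT), part B: lifting a representation of a finite group of invertible order

Let `π : R →+* k` be a surjective ring homomorphism from a commutative ring onto a field such
that every element with non-zero image is a unit and every monic polynomial over `R` is a
product of linear factors.  Let `G` be a finite group whose order is invertible in `k`.
Then every representation `G →* GL n k` lifts to a representation `G →* GL n R`.

The proof realises `k^n` as a direct summand `E = C * D` of the regular module `k[G]^n`,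
lifts the projector `E` to an idempotent `e` in the commutant of the left translations
(part A), and conjugates `e` into the coordinate projector onto the `g = 1` block.
-/

namespace Fermat.Agent.DS.Lift

open Polynomial Matrix

section ringlemmas

theorem conj_commute_aux {S : Type*} [Monoid S] {T Ti e p l : S} (h1 : Ti * T = 1)
    (h2 : T * Ti = 1) (h3 : e * T = T * p) (h4 : l * e = e * l) :
    Ti * l * T * p = p * (Ti * l * T) := by
  have h5 : Ti * e = p * Ti := by
    calc Ti * e = Ti * (e * T) * Ti := by rw [mul_assoc, mul_assoc, h2, mul_one]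
      _ = Ti * T * p * Ti := by rw [h3]; simp only [mul_assoc]
      _ = p * Ti := by rw [h1, one_mul]
  calc Ti * l * T * p = Ti * l * (T * p) := by rw [mul_assoc]
    _ = Ti * (l * e) * T := by rw [← h3]; simp only [mul_assoc]
    _ = Ti * e * l * T := by rw [h4]; simp only [mul_assoc]
    _ = p * (Ti * l * T) := by rw [h5]; simp only [mul_assoc]

theorem idem_intertwine {S : Type*} [Ring S] {e p : S} (he : e * e = e) (hp : p * p = p) :
    e * (e * p + (1 - e) * (1 - p)) = (e * p + (1 - e) * (1 - p)) * p := by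
  have h1 : e * (1 - e) = 0 := by rw [mul_sub, mul_one, he, sub_self]
  have h2 : (1 - p) * p = 0 := by rw [sub_mul, one_mul, hp, sub_self]
  rw [mul_add, add_mul, ← mul_assoc, he, ← mul_assoc e (1 - e), h1, zero_mul, add_zero,
    mul_assoc e p p, hp, mul_assoc (1 - e), h2, mul_zero, add_zero]

end ringlemmas

section mats

variable {G : Type*} [Group G] [Fintype G] [DecidableEq G]
variable {n : Type*} [Fintype n] [DecidableEq n]
variable (S : Type*) [CommRing S]

variable (n) in
/-- The matrix of left translation by `x` on `G × n`. -/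
def Lmat (x : G) : Matrix (G × n) (G × n) S :=
  Matrix.of fun p q => if p.1 = x * q.1 ∧ p.2 = q.2 then 1 else 0

variable (G n) in
/-- The inclusion of the block `g = 1`. -/
def Amat : Matrix (G × n) n S :=
  Matrix.of fun p i => if p.1 = 1 ∧ p.2 = i then 1 else 0

variable (G n) in
/-- The projection onto the block `g = 1`. -/
def Bmat : Matrix n (G × n) S :=
  Matrix.of fun i p => if p.1 = 1 ∧ p.2 = i then 1 else 0

variable {S}

theorem Lmat_mul_apply (x : G) {m : Type*} (M : Matrix (G × n) m S) (p : G × n) (q : m) :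
    (Lmat n S x * M) p q = M (x⁻¹ * p.1, p.2) q := by
  rw [Matrix.mul_apply, Finset.sum_eq_single (x⁻¹ * p.1, p.2)]
  · simp [Lmat]
  · intro s _ hs
    have : ¬ (p.1 = x * s.1 ∧ p.2 = s.2) := by
      rintro ⟨h1, h2⟩
      apply hs
      ext
      · simp [h1]
      · simp [h2]
    simp [Lmat, this]
  · intro h; exact absurd (Finset.mem_univ _) h

theorem mul_Lmat_apply (x : G) {m : Type*} (M : Matrix m (G × n) S) (p : m) (q : G × n) :
    (M * Lmat n S x) p q = M p (x * q.1, q.2) := by
  rw [Matrix.mul_apply, Finset.sum_eq_single (x * q.1, q.2)]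
  · simp [Lmat]
  · intro s _ hs
    have : ¬ (s.1 = x * q.1 ∧ s.2 = q.2) := by
      rintro ⟨h1, h2⟩
      apply hs
      ext
      · exact h1
      · exact h2
    simp [Lmat, this]
  · intro h; exact absurd (Finset.mem_univ _) h

theorem Lmat_one : Lmat n S (1 : G) = (1 : Matrix (G × n) (G × n) S) := by
  ext p q
  simp [Lmat, Matrix.one_apply, Prod.ext_iff]

theorem Lmat_mul (x y : G) :
    (Lmat n S (x * y) : Matrix (G × n) (G × n) S) = Lmat n S x * Lmat n S y := by
  ext p q
  rw [Lmat_mul_apply]
  have : (p.1 = x * y * q.1) ↔ (x⁻¹ * p.1 = y * q.1) := by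
    rw [inv_mul_eq_iff_eq_mul, mul_assoc]
  simp only [Lmat, Matrix.of_apply, this]

theorem Lmat_map {S' : Type*} [CommRing S'] (π : S →+* S') (x : G) :
    (Lmat n S x : Matrix (G × n) (G × n) S).map π = Lmat n S' x := by
  ext p q
  simp only [Lmat, Matrix.map_apply, Matrix.of_apply]
  split_ifs <;> simp

theorem Bmat_mul_apply {m : Type*} (M : Matrix (G × n) m S) (i : n) (q : m) :
    (Bmat G n S * M) i q = M (1, i) q := by
  rw [Matrix.mul_apply, Finset.sum_eq_single ((1 : G), i)]
  · simp [Bmat]
  · intro s _ hs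
    have : ¬ (s.1 = 1 ∧ s.2 = i) := by
      rintro ⟨h1, h2⟩
      apply hs
      ext
      · exact h1
      · exact h2
    simp [Bmat, this]
  · intro h; exact absurd (Finset.mem_univ _) h

theorem mul_Amat_apply {m : Type*} (M : Matrix m (G × n) S) (p : m) (i : n) :
    (M * Amat G n S) p i = M p (1, i) := by
  rw [Matrix.mul_apply, Finset.sum_eq_single ((1 : G), i)]
  · simp [Amat]
  · intro s _ hs
    have : ¬ (s.1 = 1 ∧ s.2 = i) := by
      rintro ⟨h1, h2⟩
      apply hs
      ext
      · exact h1
      · exact h2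
    simp [Amat, this]
  · intro h; exact absurd (Finset.mem_univ _) h

theorem Bmat_mul_Amat : (Bmat G n S : Matrix n (G × n) S) * Amat G n S = 1 := by
  ext i j
  rw [Bmat_mul_apply]
  simp [Amat, Matrix.one_apply]

theorem Amat_map {S' : Type*} [CommRing S'] (π : S →+* S') :
    (Amat G n S : Matrix (G × n) n S).map π = Amat G n S' := by
  ext p q
  simp only [Amat, Matrix.map_apply, Matrix.of_apply]
  split_ifs <;> simp

theorem Bmat_map {S' : Type*} [CommRing S'] (π : S →+* S') :
    (Bmat G n S : Matrix n (G × n) S).map π = Bmat G n S' := by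
  ext p q
  simp only [Bmat, Matrix.map_apply, Matrix.of_apply]
  split_ifs <;> simp

/-- The `G`-invariant kernel attached to a family of coefficient functions. -/
def aMat (f : G → n → n → S) : Matrix (G × n) (G × n) S :=
  Matrix.of fun p q => f (p.1⁻¹ * q.1) p.2 q.2

theorem aMat_commute (f : G → n → n → S) (x : G) :
    Lmat n S x * aMat f = aMat f * Lmat n S x := by
  ext p q
  rw [Lmat_mul_apply, mul_Lmat_apply]
  simp [aMat, mul_assoc]

section field

variable {k : Type*} [Field k] (r : G →* Matrix n n k) (c : k)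

/-- The embedding of `k^n` into `k[G]^n`. -/
def Cmat : Matrix (G × n) n k := Matrix.of fun p l => r p.1⁻¹ p.2 l

/-- The retraction of `k[G]^n` onto `k^n`. -/
def Dmat : Matrix n (G × n) k := Matrix.of fun l q => c * r q.1 l q.2

theorem Dmat_mul_Cmat (hc : c * (Fintype.card G : k) = 1) : Dmat r c * Cmat r = 1 := by
  ext l l'
  rw [Matrix.mul_apply, Fintype.sum_prod_type]
  have h : ∀ g : G, ∑ j : n, Dmat r c l (g, j) * Cmat r (g, j) l' =
      c * (1 : Matrix n n k) l l' := by
    intro g
    have h1 : (1 : Matrix n n k) = r g * r g⁻¹ := by rw [← map_mul, mul_inv_cancel, map_one]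
    rw [h1, Matrix.mul_apply, Finset.mul_sum]
    apply Finset.sum_congr rfl
    intro j _
    simp [Dmat, Cmat, mul_assoc]
  rw [Finset.sum_congr rfl (fun g _ => h g), Finset.sum_const, Finset.card_univ, nsmul_eq_mul,
    ← mul_assoc, mul_comm (Fintype.card G : k), hc, one_mul]

theorem Bmat_mul_Cmat : Bmat G n k * Cmat r = 1 := by
  ext i l
  rw [Bmat_mul_apply]
  simp [Cmat]

theorem Dmat_mul_Amat : Dmat r c * Amat G n k = c • (1 : Matrix n n k) := by
  ext l i
  rw [mul_Amat_apply]
  simp [Dmat]

theorem Lmat_mul_Cmat (x : G) : Lmat n k x * Cmat r = Cmat r * r x := by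
  ext p l
  rw [Lmat_mul_apply]
  have h : (x⁻¹ * p.1)⁻¹ = p.1⁻¹ * x := by rw [_root_.mul_inv_rev, inv_inv]
  simp only [Cmat, Matrix.of_apply, h, map_mul, Matrix.mul_apply]

theorem Cmat_mul_Dmat_apply (p q : G × n) :
    (Cmat r * Dmat r c) p q = c * r (p.1⁻¹ * q.1) p.2 q.2 := by
  simp only [Cmat, Dmat, Matrix.of_apply, map_mul, Matrix.mul_apply, Finset.mul_sum]
  apply Finset.sum_congr rfl
  intro j _
  ring

theorem aMat_map {R : Type*} [CommRing R] (π : R →+* k) (f : G → n → n → R)
    (hf : ∀ y j i, π (f y j i) = c * r y j i) :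
    (aMat f).map π = Cmat r * Dmat r c := by
  ext p q
  rw [Cmat_mul_Dmat_apply]
  simp [aMat, hf]

end field

end mats

section invert

variable {I n k : Type*} [Fintype I] [DecidableEq I] [Fintype n] [DecidableEq n] [Field k]

/-- The intertwiner between the projector `C * D` and the coordinate projector `A * B`
is invertible. -/
theorem T_det_ne_zero (A : Matrix I n k) (B : Matrix n I k) (C : Matrix I n k)
    (D : Matrix n I k) (c : k) (hc : c ≠ 0) (hBA : B * A = 1) (hDC : D * C = 1)
    (hBC : B * C = 1) (hDA : D * A = c • (1 : Matrix n n k)) :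
    (C * D * (A * B) + (1 - C * D) * (1 - A * B)).det ≠ 0 := by
  intro h0
  obtain ⟨v, hv0, hv⟩ := Matrix.exists_mulVec_eq_zero_iff.mpr h0
  apply hv0
  set w := B *ᵥ v with hw
  set u := D *ᵥ v with hu
  have m1 : C * D * (A * B) = c • (C * B) := by
    calc C * D * (A * B) = C * (D * A) * B := by simp only [Matrix.mul_assoc]
      _ = c • (C * B) := by rw [hDA]; simp
  have m2 : (1 - C * D) * (1 - A * B) = 1 - A * B - C * D + c • (C * B) := by
    rw [Matrix.sub_mul, Matrix.mul_sub, Matrix.mul_sub, Matrix.one_mul, Matrix.mul_one,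
      Matrix.one_mul, m1]
    abel
  have key : c • C *ᵥ w + (v - A *ᵥ w - C *ᵥ u + c • C *ᵥ w) = 0 := by
    rw [m1, m2] at hv
    simpa [Matrix.add_mulVec, Matrix.sub_mulVec, Matrix.smul_mulVec, ← Matrix.mulVec_mulVec,
      ← hw, ← hu] using hv
  have hBCv : ∀ z : n → k, B *ᵥ (C *ᵥ z) = z := fun z => by
    rw [Matrix.mulVec_mulVec, hBC, Matrix.one_mulVec]
  have hBAv : ∀ z : n → k, B *ᵥ (A *ᵥ z) = z := fun z => by
    rw [Matrix.mulVec_mulVec, hBA, Matrix.one_mulVec]
  have hDCv : ∀ z : n → k, D *ᵥ (C *ᵥ z) = z := fun z => by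
    rw [Matrix.mulVec_mulVec, hDC, Matrix.one_mulVec]
  have hDAv : ∀ z : n → k, D *ᵥ (A *ᵥ z) = c • z := fun z => by
    rw [Matrix.mulVec_mulVec, hDA, Matrix.smul_mulVec, Matrix.one_mulVec]
  have kB : c • w + (w - w - u + c • w) = 0 := by
    have := congrArg (fun z => B *ᵥ z) key
    simpa only [Matrix.mulVec_add, Matrix.mulVec_sub, Matrix.mulVec_smul, hBCv, hBAv, ← hw,
      Matrix.mulVec_zero] using this
  have kD : c • w + (u - c • w - u + c • w) = 0 := by
    have := congrArg (fun z => D *ᵥ z) key
    simpa only [Matrix.mulVec_add, Matrix.mulVec_sub, Matrix.mulVec_smul, hDCv, hDAv, ← hu,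
      Matrix.mulVec_zero] using this
  have hw0 : w = 0 := by
    have : c • w = 0 := by
      have h' : c • w + (u - c • w - u + c • w) = c • w := by abel
      rw [← h']; exact kD
    rcases smul_eq_zero.mp this with h | h
    · exact absurd h hc
    · exact h
  have hu0 : u = 0 := by
    rw [hw0] at kB
    simpa using kB
  rw [hw0, hu0] at key
  simpa using key

end invert

section main

variable {R k : Type*} [CommRing R] [Field k] (π : R →+* k)
variable {G : Type*} [Group G] [Fintype G] [DecidableEq G]
variable {n : Type*} [Fintype n] [DecidableEq n]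

theorem compress_mul {I : Type*} [Fintype I] [DecidableEq I] (A : Matrix I n R)
    (B : Matrix n I R) (hBA : B * A = 1) (M N : Matrix I I R)
    (hM : M * (A * B) = A * B * M) :
    B * (M * N) * A = B * M * A * (B * N * A) := by
  symm
  calc B * M * A * (B * N * A) = B * (M * (A * B)) * N * A := by simp only [Matrix.mul_assoc]
    _ = B * (A * B * M) * N * A := by rw [hM]
    _ = B * A * (B * M * N * A) := by simp only [Matrix.mul_assoc]
    _ = B * (M * N) * A := by rw [hBA, Matrix.one_mul]; simp only [Matrix.mul_assoc]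

theorem exists_lift_rep_matrix (hπ : Function.Surjective π)
    (hunit : ∀ x, π x ≠ 0 → IsUnit x)
    (hspl : ∀ f : R[X], f.Monic → ∃ s : Multiset R, f = (s.map (fun r => X - C r)).prod)
    (r : G →* Matrix n n k) (hG : (Fintype.card G : k) ≠ 0) :
    ∃ ρ : G →* Matrix n n R, ∀ g, (ρ g).map π = r g := by
  set c : k := (Fintype.card G : k)⁻¹ with hc
  have hc0 : c ≠ 0 := inv_ne_zero hG
  have hc1 : c * (Fintype.card G : k) = 1 := inv_mul_cancel₀ hG
  choose f hf using fun (y : G) (j i : n) => hπ (c * r y j i)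
  set a : Matrix (G × n) (G × n) R := aMat f with ha
  have hamap : a.map π = Cmat r * Dmat r c := aMat_map r c π f hf
  have hDC : Dmat r c * Cmat r = 1 := Dmat_mul_Cmat r c hc1
  have hEE : a.map π * a.map π = a.map π := by
    rw [hamap]
    calc Cmat r * Dmat r c * (Cmat r * Dmat r c)
        = Cmat r * (Dmat r c * Cmat r) * Dmat r c := by simp only [Matrix.mul_assoc]
      _ = Cmat r * Dmat r c := by rw [hDC, Matrix.mul_one]
  obtain ⟨P, hP1, hP2⟩ := exists_idempotent_lift π hunit hspl a hEE
  set e : Matrix (G × n) (G × n) R := aeval a P with he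
  have hcomm : ∀ x : G, Lmat n R x * e = e * Lmat n R x := fun x =>
    commute_aeval_right (aMat_commute f x) P
  set p : Matrix (G × n) (G × n) R := Amat G n R * Bmat G n R with hp
  have hBA : (Bmat G n R : Matrix n (G × n) R) * Amat G n R = 1 := Bmat_mul_Amat
  have hpp : p * p = p := by
    rw [hp]
    calc Amat G n R * Bmat G n R * (Amat G n R * Bmat G n R)
        = Amat G n R * (Bmat G n R * Amat G n R) * Bmat G n R := by simp only [Matrix.mul_assoc]
      _ = Amat G n R * Bmat G n R := by rw [hBA, Matrix.mul_one]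
  set T : Matrix (G × n) (G × n) R := e * p + (1 - e) * (1 - p) with hT
  have heT : e * T = T * p := idem_intertwine hP1 hpp
  have hpmap : p.map π = Amat G n k * Bmat G n k := by
    rw [hp, Matrix.map_mul, Amat_map, Bmat_map]
  have hTmap : T.map π = Cmat r * Dmat r c * (Amat G n k * Bmat G n k) +
      (1 - Cmat r * Dmat r c) * (1 - Amat G n k * Bmat G n k) := by
    have h1 : T.map π = π.mapMatrix T := rfl
    rw [h1, hT]
    simp only [map_add, map_mul, map_sub, map_one]
    rw [RingHom.mapMatrix_apply, RingHom.mapMatrix_apply, hpmap, hP2, hamap]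
  have hdet : IsUnit T.det := by
    apply hunit
    rw [RingHom.map_det, RingHom.mapMatrix_apply, hTmap]
    exact T_det_ne_zero _ _ _ _ c hc0 Bmat_mul_Amat hDC (Bmat_mul_Cmat r) (Dmat_mul_Amat r c)
  have hTi : T⁻¹ * T = 1 := Matrix.nonsing_inv_mul T hdet
  have hTi' : T * T⁻¹ = 1 := Matrix.mul_nonsing_inv T hdet
  -- the conjugated regular representation
  let M : G →* Matrix (G × n) (G × n) R :=
    { toFun := fun x => T⁻¹ * Lmat n R x * T
      map_one' := by rw [Lmat_one, mul_one, hTi]
      map_mul' := fun x y => by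
        rw [Lmat_mul]
        calc T⁻¹ * (Lmat n R x * Lmat n R y) * T
            = T⁻¹ * Lmat n R x * (T * T⁻¹) * Lmat n R y * T := by
              rw [hTi', mul_one]; simp only [mul_assoc]
          _ = T⁻¹ * Lmat n R x * T * (T⁻¹ * Lmat n R y * T) := by simp only [mul_assoc] }
  have hMp : ∀ x, M x * p = p * M x := fun x => conj_commute_aux hTi hTi' heT (hcomm x)
  let ρ : G →* Matrix n n R :=
    { toFun := fun x => Bmat G n R * M x * Amat G n R
      map_one' := by rw [map_one, Matrix.mul_one, hBA]
      map_mul' := fun x y => by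
        rw [map_mul]
        exact compress_mul (Amat G n R) (Bmat G n R) hBA (M x) (M y) (hMp x) }
  refine ⟨ρ, fun x => ?_⟩
  change (Bmat G n R * (T⁻¹ * Lmat n R x * T) * Amat G n R).map π = r x
  simp only [Matrix.map_mul, Lmat_map, Amat_map, Bmat_map]
  have hTiT : (T⁻¹).map π * T.map π = 1 := by
    rw [← Matrix.map_mul, hTi]
    ext i j
    simp [Matrix.one_apply, apply_ite]
  have hTA : T.map π * Amat G n k = c • Cmat r := by
    rw [hTmap]
    have hBAk : (Bmat G n k : Matrix n (G × n) k) * Amat G n k = 1 := Bmat_mul_Amat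
    rw [Matrix.add_mul]
    have z1 : (1 - Amat G n k * Bmat G n k) * (Amat G n k : Matrix (G × n) n k) = 0 := by
      rw [Matrix.sub_mul, Matrix.one_mul, Matrix.mul_assoc, hBAk, Matrix.mul_one, sub_self]
    have z2 : Cmat r * Dmat r c * (Amat G n k * Bmat G n k) * (Amat G n k : Matrix (G × n) n k)
        = c • Cmat r := by
      calc Cmat r * Dmat r c * (Amat G n k * Bmat G n k) * (Amat G n k : Matrix (G × n) n k)
          = Cmat r * (Dmat r c * Amat G n k) * (Bmat G n k * Amat G n k) := by
            simp only [Matrix.mul_assoc]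
        _ = c • Cmat r := by rw [hBAk, Dmat_mul_Amat]; simp
    rw [Matrix.mul_assoc (1 - Cmat r * Dmat r c), z1, Matrix.mul_zero, add_zero, z2]
  calc Bmat G n k * ((T⁻¹).map π * Lmat n k x * T.map π) * Amat G n k
      = Bmat G n k * (T⁻¹).map π * (Lmat n k x * (T.map π * Amat G n k)) := by
        simp only [Matrix.mul_assoc]
    _ = Bmat G n k * (T⁻¹).map π * (T.map π * Amat G n k * r x) := by
        rw [hTA, Matrix.mul_smul, Lmat_mul_Cmat, Matrix.smul_mul]
    _ = Bmat G n k * ((T⁻¹).map π * T.map π) * Amat G n k * r x := by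
        simp only [Matrix.mul_assoc]
    _ = r x := by rw [hTiT, Matrix.mul_one, Bmat_mul_Amat, Matrix.one_mul]

/-- **Lifting representations of finite groups of invertible order** along a surjection
`π : R →+* k` from a "split local" ring onto a field. -/
theorem exists_lift_rep {G' : Type*} [Group G'] [Finite G'] (hπ : Function.Surjective π)
    (hunit : ∀ x, π x ≠ 0 → IsUnit x)
    (hspl : ∀ f : R[X], f.Monic → ∃ s : Multiset R, f = (s.map (fun r => X - C r)).prod)
    (r : G' →* GL n k) (hG : (Nat.card G' : k) ≠ 0) :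
    ∃ ρ : G' →* GL n R, ∀ g, (ρ g).1.map π = (r g).1 := by
  classical
  have : Fintype G' := Fintype.ofFinite G'
  rw [Nat.card_eq_fintype_card] at hG
  obtain ⟨ρ, hρ⟩ := exists_lift_rep_matrix π hπ hunit hspl
    ((Units.coeHom (Matrix n n k)).comp r) hG
  refine ⟨ρ.toHomUnits, fun g => ?_⟩
  rw [MonoidHom.coe_toHomUnits, hρ]
  rfl

end main

end Fermat.Agent.DS.Lift
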