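import Mathlib
import Fermat.Agent.DS.Lift.Rep

/-!
# DS-L6 (LIFT), part C: lifting mod-`ℓ` representations of finite groups to `ℂ`

Let `φ : ℤ̄ →+* k` be a surjection from the ring of algebraic integers onto a field, and let
`G` be a finite group of order invertible in `k`.  Every representation `r : G →* GL₂(k)`
lifts to a complex representation `ρ` whose traces and determinants are algebraic integers
reducing (under `φ`) to those of `r`.

The ring used for lifting is the localisation of `ℤ̄` at `ker φ`: it is local with residue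
field `k`, embeds into `ℂ`, and every monic polynomial over it splits.
-/

namespace Fermat.Agent.DS.Lift

open Polynomial Matrix

section finite_order

variable {n : Type*} [Fintype n] [DecidableEq n]

/-- Eigenvalues of a complex matrix of finite order are algebraic integers. -/
theorem isIntegral_of_isRoot_charpoly_of_pow_eq_one (M : Matrix n n ℂ) (N : ℕ) (hN : 0 < N)
    (hM : M ^ N = 1) (μ : ℂ) (hμ : M.charpoly.IsRoot μ) : IsIntegral ℤ μ := by
  have h0 : (Matrix.scalar n μ - M).det = 0 := by
    rw [← Matrix.eval_charpoly]; exact hμ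
  obtain ⟨v, hv0, hv⟩ := Matrix.exists_mulVec_eq_zero_iff.mpr h0
  have hMv : M *ᵥ v = μ • v := by
    rw [Matrix.sub_mulVec, sub_eq_zero] at hv
    rw [← hv, Matrix.scalar_apply, ← Matrix.smul_one_eq_diagonal, Matrix.smul_mulVec,
      Matrix.one_mulVec]
  have hpow : ∀ j : ℕ, (M ^ j) *ᵥ v = μ ^ j • v := by
    intro j
    induction j with
    | zero => simp
    | succ j ih =>
      rw [pow_succ, ← Matrix.mulVec_mulVec, hMv, Matrix.mulVec_smul, ih, smul_smul, pow_succ,
        mul_comm]
  have h1 : μ ^ N = 1 := by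
    have h2 := hpow N
    rw [hM, Matrix.one_mulVec] at h2
    by_contra hne
    apply hv0
    have h3 : (1 - μ ^ N) • v = 0 := by rw [sub_smul, one_smul, ← h2, sub_self]
    rcases smul_eq_zero.mp h3 with h | h
    · exact absurd (sub_eq_zero.mp h).symm hne
    · exact h
  exact IsIntegral.of_pow hN (by rw [h1]; exact isIntegral_one)

/-- Trace and determinant of a complex matrix of finite order are algebraic integers. -/
theorem isIntegral_trace_det_of_pow_eq_one (M : Matrix n n ℂ) (N : ℕ) (hN : 0 < N)
    (hM : M ^ N = 1) : IsIntegral ℤ M.trace ∧ IsIntegral ℤ M.det := by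
  have hroot : ∀ μ ∈ M.charpoly.roots, IsIntegral ℤ μ := fun μ hμ =>
    isIntegral_of_isRoot_charpoly_of_pow_eq_one M N hN hM μ (Polynomial.isRoot_of_mem_roots hμ)
  constructor
  · rw [Matrix.trace_eq_sum_roots_charpoly]; exact IsIntegral.multiset_sum hroot
  · rw [Matrix.det_eq_prod_roots_charpoly]; exact IsIntegral.multiset_prod hroot

end finite_order

theorem exists_multiset_map_eq {α β : Type*} (f : α → β) (t : Multiset β)
    (h : ∀ z ∈ t, ∃ w, f w = z) : ∃ s : Multiset α, s.map f = t := by
  induction t using Multiset.induction_on with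
  | empty => exact ⟨0, rfl⟩
  | cons a t ih =>
    obtain ⟨s, hs⟩ := ih (fun z hz => h z (Multiset.mem_cons_of_mem hz))
    obtain ⟨w, hw⟩ := h a (Multiset.mem_cons_self _ _)
    exact ⟨w ::ₘ s, by rw [Multiset.map_cons, hw, hs]⟩

section loc

variable {k : Type*} [Field k] (φ : integralClosure ℤ ℂ →+* k)

instance locRing_ker_isPrime : (RingHom.ker φ).IsPrime := RingHom.ker_isPrime φ

/-- The localisation of the ring of algebraic integers at the kernel of `φ`. -/
abbrev LocRing : Type := Localization.AtPrime (RingHom.ker φ)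

theorem locRing_unit_phi (y : (RingHom.ker φ).primeCompl) :
    IsUnit (φ (y : integralClosure ℤ ℂ)) :=
  IsUnit.mk0 _ fun h => y.2 (RingHom.mem_ker.mpr h)

/-- The residue map of `LocRing φ`. -/
noncomputable def locPi : LocRing φ →+* k :=
  IsLocalization.lift (M := (RingHom.ker φ).primeCompl) (locRing_unit_phi φ)

theorem locPi_algebraMap (x : integralClosure ℤ ℂ) :
    locPi φ (algebraMap (integralClosure ℤ ℂ) (LocRing φ) x) = φ x :=
  IsLocalization.lift_eq _ x

theorem locPi_surjective (hφ : Function.Surjective φ) : Function.Surjective (locPi φ) := by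
  intro y
  obtain ⟨x, rfl⟩ := hφ y
  exact ⟨algebraMap _ (LocRing φ) x, locPi_algebraMap φ x⟩

theorem locPi_isUnit (x : LocRing φ) (hx : locPi φ x ≠ 0) : IsUnit x := by
  obtain ⟨a, s, rfl⟩ := IsLocalization.exists_mk'_eq (RingHom.ker φ).primeCompl x
  have h1 : IsLocalization.mk' (LocRing φ) a s *
      algebraMap (integralClosure ℤ ℂ) (LocRing φ) (s : integralClosure ℤ ℂ) =
      algebraMap (integralClosure ℤ ℂ) (LocRing φ) a := IsLocalization.mk'_spec _ a s
  have h2 : locPi φ (IsLocalization.mk' (LocRing φ) a s) * φ s = φ a := by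
    rw [← locPi_algebraMap, ← locPi_algebraMap, ← map_mul, h1]
  have ha : a ∉ RingHom.ker φ := fun ha => by
    rw [RingHom.mem_ker] at ha
    rw [ha] at h2
    rcases mul_eq_zero.mp h2 with h | h
    · exact hx h
    · exact s.2 (RingHom.mem_ker.mpr h)
  have h3 : IsUnit (algebraMap (integralClosure ℤ ℂ) (LocRing φ) a) :=
    IsLocalization.map_units (LocRing φ) (⟨a, ha⟩ : (RingHom.ker φ).primeCompl)
  rw [← h1] at h3
  exact isUnit_of_mul_isUnit_left h3

theorem locRing_coe_ne_zero (y : (RingHom.ker φ).primeCompl) :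
    ((y : integralClosure ℤ ℂ) : ℂ) ≠ 0 := fun h =>
  y.2 (by
    have h' : (y : integralClosure ℤ ℂ) = 0 := Subtype.ext h
    rw [h']; exact Ideal.zero_mem _)

theorem locRing_unit_coe (y : (RingHom.ker φ).primeCompl) :
    IsUnit (algebraMap (integralClosure ℤ ℂ) ℂ (y : integralClosure ℤ ℂ)) :=
  IsUnit.mk0 _ (locRing_coe_ne_zero φ y)

/-- The embedding of `LocRing φ` into `ℂ`. -/
noncomputable def locIota : LocRing φ →+* ℂ :=
  IsLocalization.lift (M := (RingHom.ker φ).primeCompl) (locRing_unit_coe φ)

theorem locIota_algebraMap (x : integralClosure ℤ ℂ) :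
    locIota φ (algebraMap (integralClosure ℤ ℂ) (LocRing φ) x) = (x : ℂ) :=
  IsLocalization.lift_eq _ x

theorem locIota_injective : Function.Injective (locIota φ) := by
  unfold locIota
  rw [IsLocalization.lift_injective_iff]
  intro x y
  constructor
  · intro h
    have := congrArg (locIota φ) h
    rwa [locIota_algebraMap, locIota_algebraMap] at this
  · intro h
    have h' : x = y := Subtype.ext h
    rw [h']

/-- Every monic polynomial over `LocRing φ` is a product of linear factors. -/
theorem locRing_splits (f : (LocRing φ)[X]) (hf : f.Monic) :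
    ∃ s : Multiset (LocRing φ), f = (s.map (fun r => X - C r)).prod := by
  have hsp : (f.map (locIota φ)).Splits := IsAlgClosed.splits _
  have hm : (f.map (locIota φ)).Monic := hf.map _
  have h1 := hsp.eq_prod_roots_of_monic hm
  have hrange : ∀ z ∈ (f.map (locIota φ)).roots, ∃ w, locIota φ w = z := by
    intro z hz
    let _ : Algebra (LocRing φ) ℂ := (locIota φ).toAlgebra
    have : IsScalarTower (integralClosure ℤ ℂ) (LocRing φ) ℂ :=
      IsScalarTower.of_algebraMap_eq (fun x => (locIota_algebraMap φ x).symm)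
    have hz' : IsIntegral (LocRing φ) z := by
      refine ⟨f, hf, ?_⟩
      have := Polynomial.isRoot_of_mem_roots hz
      rw [IsRoot.def, Polynomial.eval_map] at this
      exact this
    obtain ⟨m, hmz⟩ := IsIntegral.exists_multiple_integral_of_isLocalization
      (RingHom.ker φ).primeCompl z hz'
    have hmz' : IsIntegral ℤ (m • z) := isIntegral_trans _ hmz
    have hsmul : m • z = ((m : integralClosure ℤ ℂ) : ℂ) * z := rfl
    let w : integralClosure ℤ ℂ := ⟨m • z, hmz'⟩
    refine ⟨IsLocalization.mk' (LocRing φ) w m, ?_⟩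
    have h2 : IsLocalization.mk' (LocRing φ) w m *
        algebraMap (integralClosure ℤ ℂ) (LocRing φ) (m : integralClosure ℤ ℂ) =
        algebraMap (integralClosure ℤ ℂ) (LocRing φ) w := IsLocalization.mk'_spec _ w m
    have h3 := congrArg (locIota φ) h2
    rw [map_mul, locIota_algebraMap, locIota_algebraMap] at h3
    apply mul_right_cancel₀ (locRing_coe_ne_zero φ m)
    rw [h3, mul_comm]
    exact hsmul
  obtain ⟨s, hs⟩ := exists_multiset_map_eq (locIota φ) _ hrange
  refine ⟨s, Polynomial.map_injective _ (locIota_injective φ) ?_⟩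
  rw [h1, ← hs, Polynomial.map_multiset_prod, Multiset.map_map, Multiset.map_map]
  congr 1
  apply Multiset.map_congr rfl
  intro r _
  simp

end loc

/-- **DS-L6 (LIFT)**: a representation of a finite group of order prime to the residue
characteristic over a residue field of `ℤ̄` lifts to `ℂ`, compatibly with traces and
determinants. -/
theorem exists_complex_lift {k : Type*} [Field k] (φ : integralClosure ℤ ℂ →+* k)
    (hφ : Function.Surjective φ) {G : Type*} [Group G] [Finite G] (r : G →* GL (Fin 2) k)
    (hG : (Nat.card G : k) ≠ 0) :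
    ∃ ρ : G →* GL (Fin 2) ℂ, ∀ g : G, ∃ t d : integralClosure ℤ ℂ,
      (t : ℂ) = Matrix.trace (ρ g).1 ∧ (d : ℂ) = Matrix.det (ρ g).1 ∧
      φ t = Matrix.trace (r g).1 ∧ φ d = Matrix.det (r g).1 := by
  obtain ⟨ρR, hρR⟩ := exists_lift_rep (locPi φ) (locPi_surjective φ hφ) (locPi_isUnit φ)
    (locRing_splits φ) r hG
  let ρ : G →* GL (Fin 2) ℂ := (Matrix.GeneralLinearGroup.map (locIota φ)).comp ρR
  refine ⟨ρ, fun g => ?_⟩
  have hρg : (ρ g).1 = (ρR g).1.map (locIota φ) := rfl
  have hfin : (ρ g).1 ^ Nat.card G = 1 := by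
    have h1 : (ρ g) ^ Nat.card G = 1 := by rw [← map_pow, pow_card_eq_one', map_one]
    have h2 := congrArg Units.val h1
    simpa using h2
  obtain ⟨ht, hd⟩ := isIntegral_trace_det_of_pow_eq_one (ρ g).1 (Nat.card G) Nat.card_pos hfin
  let t : integralClosure ℤ ℂ := ⟨_, ht⟩
  let d : integralClosure ℤ ℂ := ⟨_, hd⟩
  refine ⟨t, d, rfl, rfl, ?_, ?_⟩
  · have h1 : algebraMap (integralClosure ℤ ℂ) (LocRing φ) t = Matrix.trace (ρR g).1 := by
      apply locIota_injective φ
      rw [locIota_algebraMap]
      change Matrix.trace (ρ g).1 = _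
      rw [hρg]
      simp [Matrix.trace]
    rw [← locPi_algebraMap, h1, ← hρR g]
    simp [Matrix.trace]
  · have h1 : algebraMap (integralClosure ℤ ℂ) (LocRing φ) d = Matrix.det (ρR g).1 := by
      apply locIota_injective φ
      rw [locIota_algebraMap]
      change Matrix.det (ρ g).1 = _
      rw [hρg, RingHom.map_det]
      rfl
    rw [← locPi_algebraMap, h1, ← hρR g, RingHom.map_det]
    rfl

end Fermat.Agent.DS.Lift
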